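import Mathlib
import Fermat.Agent.LT.A2.Spec

/-!
# Row LT, tower A2, pre-leaf QUAD for A2.02 `TorusCharC` (helper772), OFF-MAIN

Ideal arithmetic of a quadratic extension `L / K` of number fields, in the vocabulary of
`LT/A2/Spec.lean` (`LiesOverPl`).  Mathlib + A0 + A2/Spec only.  No definitions.

* (a) `split_ef772` : two places `w₁ ≠ w₂` over `v` ⟹ `e = f = 1` for both
      (`split_unram772`, `split_resSurj772`; elementary forms `unram_of_e_eq_one772`,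
      `resSurj_of_f_eq_one772`, `f_le_one_of_resSurj772`).
* Step 2 : `disc_mul_mem772` : `(t² - 4n) 𝓞_L ⊆ 𝓞_K + 𝓞_K ω` for `ω ∈ 𝓞_L`, `ω² - tω + n = 0`,
      `X² - tX + n` without root in `K` (trace form, `trace_lin772`).
* (b) `no_root_of_inert772` : `v ∤ t² - 4n`, ONE place `w` over `v`, `e = 1` ⟹ `X² - tX + n` has no
      root modulo `v`.  (Local consequence: `QuadLocal.lean`, `normForm_ne_unif772`.)
* (c) `disc_mem_of_ramified772` : `v 𝓞_L ⊆ w²` ⟹ `t² - 4n ∈ v`.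
* `ef_eq_of_unique772`, `ef_le772` : the fundamental identity in the two forms used here.
-/

set_option autoImplicit false
set_option linter.deprecated false
set_option linter.style.haveILetI false
set_option linter.unusedSectionVars false

open IsDedekindDomain NumberField

noncomputable section

namespace Fermat.Agent.LT.A2.H772

open Fermat.Agent.LT.H556 Fermat.Agent.LT.A2

variable {K L : Type} [Field K] [NumberField K] [Field L] [NumberField L] [Algebra K L]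

/-- `LiesOverPl` as the Mathlib class. -/
theorem liesOver_of_liesOverPl772 {w : HeightOneSpectrum (𝓞 L)} {v : HeightOneSpectrum (𝓞 K)}
    (h : LiesOverPl K w v) : w.asIdeal.LiesOver v.asIdeal :=
  ⟨h.symm⟩

/-- The term `e · f` of a place over `v` is positive. -/
theorem ef_pos772 {w : HeightOneSpectrum (𝓞 L)} {v : HeightOneSpectrum (𝓞 K)}
    (h : LiesOverPl K w v) :
    0 < Ideal.ramificationIdx' v.asIdeal w.asIdeal * Ideal.inertiaDeg' v.asIdeal w.asIdeal := by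
  haveI := liesOver_of_liesOverPl772 h
  haveI : v.asIdeal.IsMaximal := v.isMaximal
  exact Nat.mul_pos
    (Nat.pos_of_ne_zero (Ideal.IsDedekindDomain.ramificationIdx'_ne_zero_of_liesOver w.asIdeal v.ne_bot))
    (Ideal.inertiaDeg'_pos v.asIdeal w.asIdeal)

/-- A place over `v` belongs to the finite set of the primes over `v`. -/
theorem mem_primesOverFinset772 {w : HeightOneSpectrum (𝓞 L)} {v : HeightOneSpectrum (𝓞 K)}
    (h : LiesOverPl K w v) :
    w.asIdeal ∈ IsDedekindDomain.primesOverFinset v.asIdeal (𝓞 L) := by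
  haveI : v.asIdeal.IsMaximal := v.isMaximal
  rw [IsDedekindDomain.mem_primesOverFinset_iff v.ne_bot]
  exact ⟨w.isPrime, liesOver_of_liesOverPl772 h⟩

/-- **(a)** Two distinct places over `v` in a quadratic extension: `e = f = 1`. -/
theorem split_ef772 (h2 : Module.finrank K L = 2) (v : HeightOneSpectrum (𝓞 K))
    (w₁ w₂ : HeightOneSpectrum (𝓞 L)) (hne : w₁ ≠ w₂)
    (h₁ : LiesOverPl K w₁ v) (h₂ : LiesOverPl K w₂ v) :
    Ideal.ramificationIdx' v.asIdeal w₁.asIdeal = 1 ∧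
      Ideal.inertiaDeg' v.asIdeal w₁.asIdeal = 1 := by
  classical
  haveI : v.asIdeal.IsMaximal := v.isMaximal
  have hsum := Ideal.sum_ramification_inertia (𝓞 L) K L (p := v.asIdeal) v.ne_bot
  rw [h2] at hsum
  have hne' : w₁.asIdeal ≠ w₂.asIdeal := fun h => hne (HeightOneSpectrum.ext h)
  have hsub : ({w₁.asIdeal, w₂.asIdeal} : Finset (Ideal (𝓞 L)))
      ⊆ IsDedekindDomain.primesOverFinset v.asIdeal (𝓞 L) := by
    intro P hP
    rcases Finset.mem_insert.mp hP with rfl | hP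
    · exact mem_primesOverFinset772 h₁
    · rw [Finset.mem_singleton.mp hP]
      exact mem_primesOverFinset772 h₂
  have hle := Finset.sum_le_sum_of_subset (f := fun P : Ideal (𝓞 L) =>
    Ideal.ramificationIdx' v.asIdeal P * Ideal.inertiaDeg' v.asIdeal P) hsub
  rw [hsum, Finset.sum_pair hne'] at hle
  have p1 := ef_pos772 h₁
  have p2 := ef_pos772 h₂
  have h1 : Ideal.ramificationIdx' v.asIdeal w₁.asIdeal
      * Ideal.inertiaDeg' v.asIdeal w₁.asIdeal = 1 := by omega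
  exact Nat.eq_one_of_mul_eq_one_right h1 |> fun a => ⟨a, Nat.eq_one_of_mul_eq_one_left h1⟩

/-- `e = 1` in elementary form. -/
theorem unram_of_e_eq_one772 {w : HeightOneSpectrum (𝓞 L)} {v : HeightOneSpectrum (𝓞 K)}
    (he : Ideal.ramificationIdx' v.asIdeal w.asIdeal = 1) :
    ¬ Ideal.map (algebraMap (𝓞 K) (𝓞 L)) v.asIdeal ≤ w.asIdeal ^ 2 := by
  intro hle
  have hmap : Ideal.map (algebraMap (𝓞 K) (𝓞 L)) v.asIdeal ≠ ⊥ :=
    Ideal.map_ne_bot_of_ne_bot v.ne_bot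
  have h1 := Ideal.IsDedekindDomain.ramificationIdx'_eq_multiplicity
    (p := v.asIdeal) (P := w.asIdeal) hmap w.isPrime
  have hfin : FiniteMultiplicity w.asIdeal (Ideal.map (algebraMap (𝓞 K) (𝓞 L)) v.asIdeal) :=
    FiniteMultiplicity.of_prime_left w.prime hmap
  have h2 : 2 ≤ multiplicity w.asIdeal (Ideal.map (algebraMap (𝓞 K) (𝓞 L)) v.asIdeal) :=
    hfin.le_multiplicity_of_pow_dvd (Ideal.dvd_iff_le.mpr hle)
  omega

/-- `f = 1` in elementary form: every integer of `L` is congruent modulo `w` to an integer of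
`K`. -/
theorem resSurj_of_f_eq_one772 {w : HeightOneSpectrum (𝓞 L)} {v : HeightOneSpectrum (𝓞 K)}
    (h : LiesOverPl K w v) (hf : Ideal.inertiaDeg' v.asIdeal w.asIdeal = 1) (x : 𝓞 L) :
    ∃ r : 𝓞 K, x - algebraMap (𝓞 K) (𝓞 L) r ∈ w.asIdeal := by
  haveI := liesOver_of_liesOverPl772 h
  haveI : v.asIdeal.IsMaximal := v.isMaximal
  haveI : w.asIdeal.IsMaximal := w.isMaximal
  rw [Ideal.inertiaDeg'_algebraMap] at hf
  letI : Field (𝓞 K ⧸ v.asIdeal) := Ideal.Quotient.field v.asIdeal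
  letI : Field (𝓞 L ⧸ w.asIdeal) := Ideal.Quotient.field w.asIdeal
  have hbt : (⊥ : Subalgebra (𝓞 K ⧸ v.asIdeal) (𝓞 L ⧸ w.asIdeal)) = ⊤ :=
    Subalgebra.bot_eq_top_of_finrank_eq_one hf
  have hx : Ideal.Quotient.mk w.asIdeal x ∈ (⊥ : Subalgebra (𝓞 K ⧸ v.asIdeal) (𝓞 L ⧸ w.asIdeal)) := by
    rw [hbt]; exact Algebra.mem_top
  obtain ⟨c, hc⟩ := Algebra.mem_bot.mp hx
  obtain ⟨r, rfl⟩ := Ideal.Quotient.mk_surjective c
  refine ⟨r, ?_⟩
  rw [← Ideal.Quotient.eq, ← hc]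
  rfl

/-- Converse: if every integer of `L` is congruent modulo `w` to an integer of `K`, then
`f ≤ 1`. -/
theorem f_le_one_of_resSurj772 {w : HeightOneSpectrum (𝓞 L)} {v : HeightOneSpectrum (𝓞 K)}
    (h : LiesOverPl K w v)
    (hs : ∀ x : 𝓞 L, ∃ r : 𝓞 K, x - algebraMap (𝓞 K) (𝓞 L) r ∈ w.asIdeal) :
    Ideal.inertiaDeg' v.asIdeal w.asIdeal ≤ 1 := by
  haveI := liesOver_of_liesOverPl772 h
  haveI : v.asIdeal.IsMaximal := v.isMaximal
  rw [Ideal.inertiaDeg'_algebraMap]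
  letI : Field (𝓞 K ⧸ v.asIdeal) := Ideal.Quotient.field v.asIdeal
  refine finrank_le_one (1 : 𝓞 L ⧸ w.asIdeal) ?_
  intro y
  obtain ⟨x, rfl⟩ := Ideal.Quotient.mk_surjective y
  obtain ⟨r, hr⟩ := hs x
  refine ⟨Ideal.Quotient.mk v.asIdeal r, ?_⟩
  rw [Algebra.smul_def, mul_one]
  symm
  rw [← Ideal.Quotient.eq] at hr
  rw [hr]
  rfl

theorem split_unram772 (h2 : Module.finrank K L = 2) (v : HeightOneSpectrum (𝓞 K))
    (w₁ w₂ : HeightOneSpectrum (𝓞 L)) (hne : w₁ ≠ w₂)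
    (h₁ : LiesOverPl K w₁ v) (h₂ : LiesOverPl K w₂ v) :
    ¬ Ideal.map (algebraMap (𝓞 K) (𝓞 L)) v.asIdeal ≤ w₁.asIdeal ^ 2 :=
  unram_of_e_eq_one772 (split_ef772 h2 v w₁ w₂ hne h₁ h₂).1

theorem split_resSurj772 (h2 : Module.finrank K L = 2) (v : HeightOneSpectrum (𝓞 K))
    (w₁ w₂ : HeightOneSpectrum (𝓞 L)) (hne : w₁ ≠ w₂)
    (h₁ : LiesOverPl K w₁ v) (h₂ : LiesOverPl K w₂ v) (x : 𝓞 L) :
    ∃ r : 𝓞 K, x - algebraMap (𝓞 K) (𝓞 L) r ∈ w₁.asIdeal :=
  resSurj_of_f_eq_one772 h₁ (split_ef772 h2 v w₁ w₂ hne h₁ h₂).2 x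

/-- `1, ω` are linearly independent over `K` when `X² - tX + n` has no root in `K`. -/
theorem linInd_one_gen772 (ωL : L) (t n : K)
    (hω : ωL ^ 2 - algebraMap K L t * ωL + algebraMap K L n = 0)
    (hirr : ∀ x : K, x ^ 2 - t * x + n ≠ 0) :
    LinearIndependent K ![(1 : L), ωL] := by
  rw [LinearIndependent.pair_iff]
  intro s u hsu
  by_cases hu : u = 0
  · subst hu
    rw [zero_smul, add_zero, Algebra.smul_def, mul_one] at hsu
    exact ⟨(FaithfulSMul.algebraMap_injective K L) (by rw [hsu, map_zero]), rfl⟩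
  · exfalso
    have h1 : ωL = algebraMap K L (-s / u) := by
      rw [Algebra.smul_def, Algebra.smul_def, mul_one] at hsu
      have hu' : algebraMap K L u ≠ 0 := by
        intro h
        exact hu ((FaithfulSMul.algebraMap_injective K L) (by rw [h, map_zero]))
      rw [map_div₀, map_neg, eq_div_iff hu']
      linear_combination hsu
    apply hirr (-s / u)
    apply FaithfulSMul.algebraMap_injective K L
    rw [map_zero, map_add, map_sub, map_pow, map_mul, ← h1]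
    exact hω

/-- The trace form on `K + K ω`. -/
theorem trace_lin772 (h2 : Module.finrank K L = 2) (ωL : L) (t n : K)
    (hω : ωL ^ 2 - algebraMap K L t * ωL + algebraMap K L n = 0)
    (hirr : ∀ x : K, x ^ 2 - t * x + n ≠ 0) (α β : K) :
    Algebra.trace K L (algebraMap K L α + algebraMap K L β * ωL) = 2 * α + β * t := by
  classical
  have hli := linInd_one_gen772 ωL t n hω hirr
  have hcard : Fintype.card (Fin 2) = Module.finrank K L := by rw [h2]; rfl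
  set b := basisOfLinearIndependentOfCardEqFinrank hli hcard with hb
  have hb0 : b 0 = 1 := by
    rw [hb, coe_basisOfLinearIndependentOfCardEqFinrank]; rfl
  have hb1 : b 1 = ωL := by
    rw [hb, coe_basisOfLinearIndependentOfCardEqFinrank]; rfl
  have htrω : Algebra.trace K L ωL = t := by
    rw [Algebra.trace_eq_matrix_trace b, Matrix.trace_fin_two,
      Algebra.leftMulMatrix_eq_repr_mul, Algebra.leftMulMatrix_eq_repr_mul, hb0, hb1, mul_one]
    have e1 : ωL * ωL = (-n) • b 0 + t • b 1 := by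
      rw [hb0, hb1, Algebra.smul_def, Algebra.smul_def, mul_one, map_neg]
      linear_combination hω
    rw [e1, ← hb1, map_add, map_smul, map_smul, b.repr_self, b.repr_self]
    simp
  have htr1 : Algebra.trace K L (algebraMap K L α) = 2 * α := by
    rw [Algebra.trace_algebraMap, h2]
    simp
  rw [map_add, htr1, ← Algebra.smul_def, map_smul, htrω, smul_eq_mul]

/-- Every element of `L` is `α + β ω`. -/
theorem exists_decomp772 (h2 : Module.finrank K L = 2) (ωL : L) (t n : K)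
    (hω : ωL ^ 2 - algebraMap K L t * ωL + algebraMap K L n = 0)
    (hirr : ∀ x : K, x ^ 2 - t * x + n ≠ 0) (y : L) :
    ∃ α β : K, y = algebraMap K L α + algebraMap K L β * ωL := by
  classical
  have hli := linInd_one_gen772 ωL t n hω hirr
  have hcard : Fintype.card (Fin 2) = Module.finrank K L := by rw [h2]; rfl
  set b := basisOfLinearIndependentOfCardEqFinrank hli hcard with hb
  have hb0 : b 0 = 1 := by
    rw [hb, coe_basisOfLinearIndependentOfCardEqFinrank]; rfl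
  have hb1 : b 1 = ωL := by
    rw [hb, coe_basisOfLinearIndependentOfCardEqFinrank]; rfl
  refine ⟨b.repr y 0, b.repr y 1, ?_⟩
  have h := b.sum_repr y
  rw [Fin.sum_univ_two, hb0, hb1, Algebra.smul_def, Algebra.smul_def, mul_one] at h
  exact h.symm

/-- The trace of an integer of `L` is an integer of `K`. -/
theorem exists_trace_eq772 (y : 𝓞 L) :
    ∃ T : 𝓞 K, algebraMap (𝓞 K) K T = Algebra.trace K L (algebraMap (𝓞 L) L y) := by
  have h1 : IsIntegral (𝓞 K) (algebraMap (𝓞 L) L y) :=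
    (Algebra.IsIntegral.isIntegral (R := 𝓞 K) y).algebraMap
  have h2 : IsIntegral (𝓞 K) (Algebra.trace K L (algebraMap (𝓞 L) L y)) :=
    Algebra.isIntegral_trace h1
  exact IsIntegrallyClosed.isIntegral_iff.mp h2

/-- **Step 2.**  `(t² - 4n) 𝓞_L ⊆ 𝓞_K + 𝓞_K ω`. -/
theorem disc_mul_mem772 (h2 : Module.finrank K L = 2) (ω : 𝓞 L) (t n : 𝓞 K)
    (hω : ω ^ 2 - algebraMap (𝓞 K) (𝓞 L) t * ω + algebraMap (𝓞 K) (𝓞 L) n = 0)
    (hirr : ∀ x : K, x ^ 2 - algebraMap (𝓞 K) K t * x + algebraMap (𝓞 K) K n ≠ 0) (x : 𝓞 L) :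
    ∃ a b : 𝓞 K, algebraMap (𝓞 K) (𝓞 L) (t ^ 2 - 4 * n) * x
      = algebraMap (𝓞 K) (𝓞 L) a + algebraMap (𝓞 K) (𝓞 L) b * ω := by
  have hωL : (algebraMap (𝓞 L) L ω) ^ 2
      - algebraMap K L (algebraMap (𝓞 K) K t) * algebraMap (𝓞 L) L ω
      + algebraMap K L (algebraMap (𝓞 K) K n) = 0 := by
    have := congrArg (algebraMap (𝓞 L) L) hω
    rw [map_zero, map_add, map_sub, map_pow, map_mul,
      ← IsScalarTower.algebraMap_apply (𝓞 K) (𝓞 L) L,
      ← IsScalarTower.algebraMap_apply (𝓞 K) (𝓞 L) L,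
      IsScalarTower.algebraMap_apply (𝓞 K) K L,
      IsScalarTower.algebraMap_apply (𝓞 K) K L] at this
    exact this
  obtain ⟨α, β, hαβ⟩ := exists_decomp772 h2 _ _ _ hωL hirr (algebraMap (𝓞 L) L x)
  obtain ⟨T₁, hT₁⟩ := exists_trace_eq772 (K := K) x
  obtain ⟨T₂, hT₂⟩ := exists_trace_eq772 (K := K) (x * ω)
  rw [hαβ, trace_lin772 h2 _ _ _ hωL hirr] at hT₁
  have hxω : algebraMap (𝓞 L) L (x * ω)
      = algebraMap K L (-(β * algebraMap (𝓞 K) K n))
        + algebraMap K L (α + β * algebraMap (𝓞 K) K t) * algebraMap (𝓞 L) L ω := by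
    rw [map_mul, hαβ, map_neg, map_add, map_mul, map_mul]
    linear_combination (algebraMap K L β) * hωL
  rw [hxω, trace_lin772 h2 _ _ _ hωL hirr] at hT₂
  refine ⟨(t ^ 2 - 2 * n) * T₁ - t * T₂, 2 * T₂ - t * T₁, ?_⟩
  apply FaithfulSMul.algebraMap_injective (𝓞 L) L
  have ha : algebraMap (𝓞 K) K ((t ^ 2 - 2 * n) * T₁ - t * T₂)
      = (algebraMap (𝓞 K) K t ^ 2 - 4 * algebraMap (𝓞 K) K n) * α := by
    rw [map_sub, map_mul, map_mul, hT₁, hT₂, map_sub, map_pow, map_mul, map_ofNat]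
    ring
  have hb : algebraMap (𝓞 K) K (2 * T₂ - t * T₁)
      = (algebraMap (𝓞 K) K t ^ 2 - 4 * algebraMap (𝓞 K) K n) * β := by
    rw [map_sub, map_mul, map_mul, hT₁, hT₂, map_ofNat]
    ring
  have hd : algebraMap (𝓞 K) K (t ^ 2 - 4 * n)
      = algebraMap (𝓞 K) K t ^ 2 - 4 * algebraMap (𝓞 K) K n := by
    rw [map_sub, map_pow, map_mul, map_ofNat]
  rw [map_mul, map_add, map_mul,
    ← IsScalarTower.algebraMap_apply (𝓞 K) (𝓞 L) L,
    ← IsScalarTower.algebraMap_apply (𝓞 K) (𝓞 L) L,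
    ← IsScalarTower.algebraMap_apply (𝓞 K) (𝓞 L) L,
    IsScalarTower.algebraMap_apply (𝓞 K) K L,
    IsScalarTower.algebraMap_apply (𝓞 K) K L ((t ^ 2 - 2 * n) * T₁ - t * T₂),
    IsScalarTower.algebraMap_apply (𝓞 K) K L (2 * T₂ - t * T₁),
    ha, hb, hd, hαβ, map_mul, map_mul]
  ring

/-- An element outside `v` is invertible modulo `v`. -/
theorem exists_inv_mod772 (v : HeightOneSpectrum (𝓞 K)) (d : 𝓞 K) (hd : d ∉ v.asIdeal) :
    ∃ d' : 𝓞 K, d * d' - 1 ∈ v.asIdeal := by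
  obtain ⟨y, i, hi, hyi⟩ := v.isMaximal.exists_inv hd
  refine ⟨y, ?_⟩
  have : d * y - 1 = -i := by linear_combination hyi
  rw [this]
  exact neg_mem hi

/-- Elements of `v` are in `w` for `w` over `v`. -/
theorem algebraMap_mem_of_mem772 {w : HeightOneSpectrum (𝓞 L)} {v : HeightOneSpectrum (𝓞 K)}
    (h : LiesOverPl K w v) {a : 𝓞 K} (ha : a ∈ v.asIdeal) :
    algebraMap (𝓞 K) (𝓞 L) a ∈ w.asIdeal := by
  rw [← h] at ha
  exact ha

theorem mem_of_algebraMap_mem772 {w : HeightOneSpectrum (𝓞 L)} {v : HeightOneSpectrum (𝓞 K)}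
    (h : LiesOverPl K w v) {a : 𝓞 K} (ha : algebraMap (𝓞 K) (𝓞 L) a ∈ w.asIdeal) :
    a ∈ v.asIdeal := by
  rw [← h]
  exact ha

theorem map_le_of_liesOverPl772 {w : HeightOneSpectrum (𝓞 L)} {v : HeightOneSpectrum (𝓞 K)}
    (h : LiesOverPl K w v) : Ideal.map (algebraMap (𝓞 K) (𝓞 L)) v.asIdeal ≤ w.asIdeal := by
  rw [Ideal.map_le_iff_le_comap, h]

/-- Modulo `v 𝓞_L`, every integer of `L` is in `𝓞_K + 𝓞_K ω`, if `v ∤ t² - 4n`. -/
theorem exists_approx_mod772 (h2 : Module.finrank K L = 2) (ω : 𝓞 L) (t n : 𝓞 K)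
    (hω : ω ^ 2 - algebraMap (𝓞 K) (𝓞 L) t * ω + algebraMap (𝓞 K) (𝓞 L) n = 0)
    (hirr : ∀ x : K, x ^ 2 - algebraMap (𝓞 K) K t * x + algebraMap (𝓞 K) K n ≠ 0)
    (v : HeightOneSpectrum (𝓞 K)) (hd : t ^ 2 - 4 * n ∉ v.asIdeal) (x : 𝓞 L) :
    ∃ a b : 𝓞 K, x - (algebraMap (𝓞 K) (𝓞 L) a + algebraMap (𝓞 K) (𝓞 L) b * ω)
      ∈ Ideal.map (algebraMap (𝓞 K) (𝓞 L)) v.asIdeal := by
  obtain ⟨a₀, b₀, hab⟩ := disc_mul_mem772 h2 ω t n hω hirr x
  obtain ⟨d', hd'⟩ := exists_inv_mod772 v _ hd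
  refine ⟨d' * a₀, d' * b₀, ?_⟩
  have h1 : x - (algebraMap (𝓞 K) (𝓞 L) (d' * a₀) + algebraMap (𝓞 K) (𝓞 L) (d' * b₀) * ω)
      = algebraMap (𝓞 K) (𝓞 L) (-((t ^ 2 - 4 * n) * d' - 1)) * x := by
    rw [map_neg, map_sub, map_mul, map_mul, map_mul, map_one]
    linear_combination (algebraMap (𝓞 K) (𝓞 L) d') * hab
  rw [h1]
  exact Ideal.mul_mem_right _ _ (Ideal.mem_map_of_mem _ (neg_mem hd'))

/-- If `w` is the only place over `v`, the fundamental identity reads `e f = [L : K]`. -/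
theorem ef_eq_of_unique772 (v : HeightOneSpectrum (𝓞 K)) (w : HeightOneSpectrum (𝓞 L))
    (hw : LiesOverPl K w v) (huniq : ∀ w' : HeightOneSpectrum (𝓞 L), LiesOverPl K w' v → w' = w) :
    Ideal.ramificationIdx' v.asIdeal w.asIdeal * Ideal.inertiaDeg' v.asIdeal w.asIdeal
      = Module.finrank K L := by
  classical
  haveI : v.asIdeal.IsMaximal := v.isMaximal
  have hsum := Ideal.sum_ramification_inertia (𝓞 L) K L (p := v.asIdeal) v.ne_bot
  rw [← hsum]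
  symm
  apply Finset.sum_eq_single_of_mem _ (mem_primesOverFinset772 hw)
  intro P hP hPne
  exfalso
  rw [IsDedekindDomain.mem_primesOverFinset_iff v.ne_bot] at hP
  obtain ⟨hPprime, hPover⟩ := hP
  have hPbot : P ≠ ⊥ := by
    haveI := hPover
    exact Ideal.ne_bot_of_liesOver_of_ne_bot v.ne_bot P
  have := huniq ⟨P, hPprime, hPbot⟩ hPover.over.symm
  exact hPne (congrArg HeightOneSpectrum.asIdeal this)

/-- A single term of the fundamental identity is at most `[L : K]`. -/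
theorem ef_le772 (v : HeightOneSpectrum (𝓞 K)) (w : HeightOneSpectrum (𝓞 L))
    (hw : LiesOverPl K w v) :
    Ideal.ramificationIdx' v.asIdeal w.asIdeal * Ideal.inertiaDeg' v.asIdeal w.asIdeal
      ≤ Module.finrank K L := by
  classical
  haveI : v.asIdeal.IsMaximal := v.isMaximal
  have hsum := Ideal.sum_ramification_inertia (𝓞 L) K L (p := v.asIdeal) v.ne_bot
  rw [← hsum]
  exact Finset.single_le_sum (f := fun P : Ideal (𝓞 L) =>
    Ideal.ramificationIdx' v.asIdeal P * Ideal.inertiaDeg' v.asIdeal P)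
    (fun _ _ => Nat.zero_le _) (mem_primesOverFinset772 hw)

/-- If `ω ≡ r₀` modulo `w` and `v ∤ t² - 4n`, the residue field of `w` is that of `v`. -/
theorem resSurj_of_gen_congr772 (h2 : Module.finrank K L = 2) (ω : 𝓞 L) (t n : 𝓞 K)
    (hω : ω ^ 2 - algebraMap (𝓞 K) (𝓞 L) t * ω + algebraMap (𝓞 K) (𝓞 L) n = 0)
    (hirr : ∀ x : K, x ^ 2 - algebraMap (𝓞 K) K t * x + algebraMap (𝓞 K) K n ≠ 0)
    (v : HeightOneSpectrum (𝓞 K)) (hd : t ^ 2 - 4 * n ∉ v.asIdeal)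
    (w : HeightOneSpectrum (𝓞 L)) (hw : LiesOverPl K w v)
    (r₀ : 𝓞 K) (hr₀ : ω - algebraMap (𝓞 K) (𝓞 L) r₀ ∈ w.asIdeal) (x : 𝓞 L) :
    ∃ r : 𝓞 K, x - algebraMap (𝓞 K) (𝓞 L) r ∈ w.asIdeal := by
  obtain ⟨a, b, hab⟩ := exists_approx_mod772 h2 ω t n hω hirr v hd x
  refine ⟨a + b * r₀, ?_⟩
  have h1 : x - algebraMap (𝓞 K) (𝓞 L) (a + b * r₀)
      = (x - (algebraMap (𝓞 K) (𝓞 L) a + algebraMap (𝓞 K) (𝓞 L) b * ω))
        + algebraMap (𝓞 K) (𝓞 L) b * (ω - algebraMap (𝓞 K) (𝓞 L) r₀) := by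
    rw [map_add, map_mul]; ring
  rw [h1]
  exact add_mem (map_le_of_liesOverPl772 hw hab) (Ideal.mul_mem_left _ _ hr₀)

/-- **(b), global part.**  `v ∤ t² - 4n`, ONE place `w` over `v`, unramified: the polynomial
`X² - tX + n` has no root modulo `v`. -/
theorem no_root_of_inert772 (h2 : Module.finrank K L = 2) (ω : 𝓞 L) (t n : 𝓞 K)
    (hω : ω ^ 2 - algebraMap (𝓞 K) (𝓞 L) t * ω + algebraMap (𝓞 K) (𝓞 L) n = 0)
    (hirr : ∀ x : K, x ^ 2 - algebraMap (𝓞 K) K t * x + algebraMap (𝓞 K) K n ≠ 0)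
    (v : HeightOneSpectrum (𝓞 K)) (hd : t ^ 2 - 4 * n ∉ v.asIdeal)
    (w : HeightOneSpectrum (𝓞 L)) (hw : LiesOverPl K w v)
    (huniq : ∀ w' : HeightOneSpectrum (𝓞 L), LiesOverPl K w' v → w' = w)
    (he : Ideal.ramificationIdx' v.asIdeal w.asIdeal = 1) (r : 𝓞 K) :
    r ^ 2 - t * r + n ∉ v.asIdeal := by
  intro hr
  have hprod : (ω - algebraMap (𝓞 K) (𝓞 L) r) * (ω - algebraMap (𝓞 K) (𝓞 L) (t - r))
      ∈ w.asIdeal := by
    have h1 : (ω - algebraMap (𝓞 K) (𝓞 L) r) * (ω - algebraMap (𝓞 K) (𝓞 L) (t - r))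
        = algebraMap (𝓞 K) (𝓞 L) (-(r ^ 2 - t * r + n)) := by
      rw [map_neg, map_add, map_sub, map_sub, map_pow, map_mul]
      linear_combination hω
    rw [h1]
    exact algebraMap_mem_of_mem772 hw (neg_mem hr)
  have hex : ∃ r₀ : 𝓞 K, ω - algebraMap (𝓞 K) (𝓞 L) r₀ ∈ w.asIdeal := by
    rcases w.isPrime.mem_or_mem hprod with h | h
    · exact ⟨r, h⟩
    · exact ⟨t - r, h⟩
  obtain ⟨r₀, hr₀⟩ := hex
  have hf : Ideal.inertiaDeg' v.asIdeal w.asIdeal ≤ 1 :=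
    f_le_one_of_resSurj772 hw (resSurj_of_gen_congr772 h2 ω t n hω hirr v hd w hw r₀ hr₀)
  have hef := ef_eq_of_unique772 v w hw huniq
  rw [he, h2, one_mul] at hef
  omega

/-- **(c)** A place `v` which ramifies in `L` divides `t² - 4n`. -/
theorem disc_mem_of_ramified772 (h2 : Module.finrank K L = 2) (ω : 𝓞 L) (t n : 𝓞 K)
    (hω : ω ^ 2 - algebraMap (𝓞 K) (𝓞 L) t * ω + algebraMap (𝓞 K) (𝓞 L) n = 0)
    (hirr : ∀ x : K, x ^ 2 - algebraMap (𝓞 K) K t * x + algebraMap (𝓞 K) K n ≠ 0)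
    (v : HeightOneSpectrum (𝓞 K)) (w : HeightOneSpectrum (𝓞 L)) (hw : LiesOverPl K w v)
    (hram : Ideal.map (algebraMap (𝓞 K) (𝓞 L)) v.asIdeal ≤ w.asIdeal ^ 2) :
    t ^ 2 - 4 * n ∈ v.asIdeal := by
  by_contra hd
  haveI := liesOver_of_liesOverPl772 hw
  haveI : v.asIdeal.IsMaximal := v.isMaximal
  -- `e ≥ 2`, hence `f = 1`
  have hmap : Ideal.map (algebraMap (𝓞 K) (𝓞 L)) v.asIdeal ≠ ⊥ :=
    Ideal.map_ne_bot_of_ne_bot v.ne_bot
  have h1 := Ideal.IsDedekindDomain.ramificationIdx'_eq_multiplicity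
    (p := v.asIdeal) (P := w.asIdeal) hmap w.isPrime
  have hfin : FiniteMultiplicity w.asIdeal (Ideal.map (algebraMap (𝓞 K) (𝓞 L)) v.asIdeal) :=
    FiniteMultiplicity.of_prime_left w.prime hmap
  have he2 : 2 ≤ Ideal.ramificationIdx' v.asIdeal w.asIdeal := by
    rw [h1]
    exact hfin.le_multiplicity_of_pow_dvd (Ideal.dvd_iff_le.mpr hram)
  have hle := ef_le772 v w hw
  rw [h2] at hle
  have hfpos : 0 < Ideal.inertiaDeg' v.asIdeal w.asIdeal := Ideal.inertiaDeg'_pos v.asIdeal w.asIdeal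
  have hf : Ideal.inertiaDeg' v.asIdeal w.asIdeal = 1 := by
    by_contra hne
    have h3 : 2 ≤ Ideal.inertiaDeg' v.asIdeal w.asIdeal := by omega
    have := Nat.mul_le_mul he2 h3
    omega
  -- `π = ω - r₀ ∈ w`
  obtain ⟨r₀, hr₀⟩ := resSurj_of_f_eq_one772 hw hf ω
  set π : 𝓞 L := ω - algebraMap (𝓞 K) (𝓞 L) r₀ with hπ
  have hquad : π ^ 2 - algebraMap (𝓞 K) (𝓞 L) (t - 2 * r₀) * π
      + algebraMap (𝓞 K) (𝓞 L) (r₀ ^ 2 - t * r₀ + n) = 0 := by
    rw [hπ, map_sub, map_add, map_sub, map_mul, map_mul, map_pow, map_ofNat]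
    linear_combination hω
  have hN : r₀ ^ 2 - t * r₀ + n ∈ v.asIdeal := by
    apply mem_of_algebraMap_mem772 hw
    have : algebraMap (𝓞 K) (𝓞 L) (r₀ ^ 2 - t * r₀ + n)
        = (algebraMap (𝓞 K) (𝓞 L) (t - 2 * r₀) - π) * π := by
      linear_combination hquad
    rw [this]
    exact Ideal.mul_mem_left _ _ hr₀
  have hT : t - 2 * r₀ ∉ v.asIdeal := by
    intro hT
    apply hd
    have : t ^ 2 - 4 * n = (t - 2 * r₀) * (t - 2 * r₀) - 4 * (r₀ ^ 2 - t * r₀ + n) := by ring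
    rw [this]
    exact sub_mem (Ideal.mul_mem_left _ _ hT) (Ideal.mul_mem_left _ _ hN)
  -- `T₀ π ∈ w²`
  have hπ2 : π ^ 2 ∈ w.asIdeal ^ 2 := Ideal.pow_mem_pow hr₀ 2
  have hTπ : algebraMap (𝓞 K) (𝓞 L) (t - 2 * r₀) * π ∈ w.asIdeal ^ 2 := by
    have : algebraMap (𝓞 K) (𝓞 L) (t - 2 * r₀) * π
        = π ^ 2 + algebraMap (𝓞 K) (𝓞 L) (r₀ ^ 2 - t * r₀ + n) := by
      linear_combination -hquad
    rw [this]
    exact add_mem hπ2 (hram (Ideal.mem_map_of_mem _ hN))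
  -- `π ∈ w²`
  obtain ⟨y, hy⟩ := exists_inv_mod772 v _ hT
  have hπw2 : π ∈ w.asIdeal ^ 2 := by
    have : π = algebraMap (𝓞 K) (𝓞 L) y * (algebraMap (𝓞 K) (𝓞 L) (t - 2 * r₀) * π)
        - algebraMap (𝓞 K) (𝓞 L) ((t - 2 * r₀) * y - 1) * π := by
      simp only [map_sub, map_mul, map_one]; ring
    rw [this]
    refine sub_mem (Ideal.mul_mem_left _ _ hTπ) ?_
    rw [pow_two]
    exact Ideal.mul_mem_mul (algebraMap_mem_of_mem772 hw hy) hr₀
  -- `w ⊆ w²`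
  have hww : w.asIdeal ≤ w.asIdeal ^ 2 := by
    intro x hx
    obtain ⟨a, b, hab⟩ := exists_approx_mod772 h2 ω t n hω hirr v hd x
    have hab' := hram hab
    have hc : algebraMap (𝓞 K) (𝓞 L) (a + b * r₀) ∈ w.asIdeal := by
      have : algebraMap (𝓞 K) (𝓞 L) (a + b * r₀)
          = x - (x - (algebraMap (𝓞 K) (𝓞 L) a + algebraMap (𝓞 K) (𝓞 L) b * ω))
            - algebraMap (𝓞 K) (𝓞 L) b * π := by
        rw [hπ, map_add, map_mul]; ring
      rw [this]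
      exact sub_mem (sub_mem hx (map_le_of_liesOverPl772 hw hab)) (Ideal.mul_mem_left _ _ hr₀)
    have hc' : algebraMap (𝓞 K) (𝓞 L) (a + b * r₀) ∈ w.asIdeal ^ 2 :=
      hram (Ideal.mem_map_of_mem _ (mem_of_algebraMap_mem772 hw hc))
    have : x = (x - (algebraMap (𝓞 K) (𝓞 L) a + algebraMap (𝓞 K) (𝓞 L) b * ω))
        + algebraMap (𝓞 K) (𝓞 L) (a + b * r₀) + algebraMap (𝓞 K) (𝓞 L) b * π := by
      rw [hπ, map_add, map_mul]; ring
    rw [this]
    exact add_mem (add_mem hab' hc') (Ideal.mul_mem_left _ _ hπw2)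
  -- contradiction
  have heq : w.asIdeal * w.asIdeal = w.asIdeal * ⊤ := by
    rw [Ideal.mul_top, ← pow_two]
    exact le_antisymm (Ideal.pow_le_self two_ne_zero) hww
  have htop : w.asIdeal = ⊤ := mul_left_cancel₀ w.ne_bot heq
  exact w.isPrime.ne_top htop

end Fermat.Agent.LT.A2.H772

end
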