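import Mathlib
import Fermat.Agent.LT.A2.Spec

/-!
# Row LT, tower A2, pre-leaf QUAD (local part) for A2.02 `TorusCharC` (helper772), OFF-MAIN

Mathlib + A0 + A2/Spec only.  No definitions.

* `exists_approx_integer772` : every element of `𝒪_v` is congruent modulo the maximal ideal to an
  integer of `K` (proof of helper11, `LT/H11/LC.lean`, specialised).
* `valued_algebraMap_lt_one_iff772` : `|r|_v < 1 ↔ r ∈ v` for `r ∈ 𝓞_K`.
* `lt_one_iff_le_exp772` : in `ℤᵐ⁰`, `x < 1 ↔ x ≤ exp (-1)`.
* `normForm_ne_unif772` : if `X² - tX + n` has no root modulo `v`, then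
  `|a² + t a b + n b²|_v ≠ exp (-1)` for `a, b ∈ 𝒪_v`.
-/

set_option autoImplicit false
set_option linter.deprecated false
set_option linter.style.haveILetI false
set_option linter.unusedSectionVars false

open IsDedekindDomain NumberField

noncomputable section
namespace Fermat.Agent.LT.A2.H772
open Fermat.Agent.LT.H556 Fermat.Agent.LT.A2

variable {K : Type} [Field K] [NumberField K]

/-- In `ℤᵐ⁰`: `x < 1 ↔ x ≤ exp (-1)`. -/
theorem lt_one_iff_le_exp772 (x : WithZero (Multiplicative ℤ)) :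
    x < 1 ↔ x ≤ WithZero.exp (-1 : ℤ) := by
  have h := WithZero.lt_mul_exp_iff_le (x := x) (y := WithZero.exp (-1 : ℤ)) WithZero.exp_ne_zero
  rw [← WithZero.exp_add] at h
  simpa using h

/-- The valuation of an integer of `K` in the completion at `v`. -/
theorem valued_algebraMap_lt_one_iff772 (v : HeightOneSpectrum (𝓞 K)) (r : 𝓞 K) :
    Valued.v (algebraMap (𝓞 K) (v.adicCompletion K) r) < 1 ↔ r ∈ v.asIdeal := by
  have h2 : Valued.v (algebraMap (𝓞 K) (v.adicCompletion K) r)
      = v.valuation K (algebraMap (𝓞 K) K r) :=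
    HeightOneSpectrum.valuedAdicCompletion_eq_valuation (K := K) v r
  rw [h2, HeightOneSpectrum.valuation_of_algebraMap]
  exact HeightOneSpectrum.intValuation_lt_one_iff_mem v r

theorem valued_algebraMap_le_one772 (v : HeightOneSpectrum (𝓞 K)) (r : 𝓞 K) :
    Valued.v (algebraMap (𝓞 K) (v.adicCompletion K) r) ≤ 1 := by
  have h2 : Valued.v (algebraMap (𝓞 K) (v.adicCompletion K) r)
      = v.valuation K (algebraMap (𝓞 K) K r) :=
    HeightOneSpectrum.valuedAdicCompletion_eq_valuation (K := K) v r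
  rw [h2]
  exact HeightOneSpectrum.valuation_le_one v r

/-- Every element of `𝒪_v` is congruent modulo the maximal ideal to an integer of `K`
(same proof as `exists_valued_sub_algebraMap_lt_one_h11` of helper11). -/
theorem exists_approx_integer772 (v : HeightOneSpectrum (𝓞 K)) (x : v.adicCompletion K)
    (hx : Valued.v x ≤ 1) :
    ∃ r : 𝓞 K, Valued.v (x - algebraMap (𝓞 K) (v.adicCompletion K) r) < 1 := by
  have hball : IsOpen {z : v.adicCompletion K | Valued.v z < 1} := by
    have := Valued.isOpen_ball (v.adicCompletion K) (1 : _)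
    simpa only [Valuation.restrict_lt_one_iff] using this
  have hopen : IsOpen {y : v.adicCompletion K | Valued.v (x - y) < 1} := by
    have h1 : {y : v.adicCompletion K | Valued.v (x - y) < 1}
        = (fun y => x - y) ⁻¹' {z | Valued.v z < 1} := rfl
    rw [h1]
    exact IsOpen.preimage (by fun_prop) hball
  have hne : ({y : v.adicCompletion K | Valued.v (x - y) < 1}).Nonempty :=
    ⟨x, by simp⟩
  obtain ⟨k, hk⟩ := (HeightOneSpectrum.denseRange_algebraMap K v).exists_mem_open hopen hne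
  replace hk : Valued.v (x - algebraMap K (v.adicCompletion K) k) < 1 := hk
  have hk1 : Valued.v (algebraMap K (v.adicCompletion K) k) ≤ 1 := by
    have : algebraMap K (v.adicCompletion K) k = x - (x - algebraMap K (v.adicCompletion K) k) := by
      ring
    rw [this]
    exact le_trans (Valuation.map_sub _ _ _) (max_le hx hk.le)
  have key : ∀ y : K, Valued.v (algebraMap K (v.adicCompletion K) y) = v.valuation K y :=
    fun y => HeightOneSpectrum.valuedAdicCompletion_eq_valuation' v y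
  have hk2 : v.valuation K k ≤ 1 := by
    rw [← key]
    exact hk1
  obtain ⟨a, ha⟩ := HeightOneSpectrum.exists_valuation_sub_lt_of_integer v hk2 1
  refine ⟨a, ?_⟩
  have ha' : Valued.v (algebraMap K (v.adicCompletion K) k
      - algebraMap (𝓞 K) (v.adicCompletion K) a) < 1 := by
    have e : algebraMap K (v.adicCompletion K) k - algebraMap (𝓞 K) (v.adicCompletion K) a
        = algebraMap K (v.adicCompletion K) (k - algebraMap (𝓞 K) K a) := by
      rw [map_sub, ← IsScalarTower.algebraMap_apply]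
    rw [e, key]
    rw [Valuation.map_sub_swap] at ha
    simpa using ha
  have : x - algebraMap (𝓞 K) (v.adicCompletion K) a
      = (x - algebraMap K (v.adicCompletion K) k)
        + (algebraMap K (v.adicCompletion K) k - algebraMap (𝓞 K) (v.adicCompletion K) a) := by
    ring
  rw [this]
  exact lt_of_le_of_lt (Valuation.map_add _ _ _) (max_lt hk ha')

/-- **(b), local part.**  If `X² - tX + n` has no root modulo `v`, the norm form
`a² + t a b + n b²` never takes a value of valuation `exp (-1)` on `𝒪_v × 𝒪_v`. -/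
theorem normForm_ne_unif772 (v : HeightOneSpectrum (𝓞 K)) (t n : 𝓞 K)
    (hroot : ∀ r : 𝓞 K, r ^ 2 - t * r + n ∉ v.asIdeal)
    (a b : v.adicCompletion K) (ha : Valued.v a ≤ 1) (hb : Valued.v b ≤ 1) :
    Valued.v (a ^ 2 + algebraMap (𝓞 K) (v.adicCompletion K) t * a * b
      + algebraMap (𝓞 K) (v.adicCompletion K) n * b ^ 2) ≠ WithZero.exp (-1 : ℤ) := by
  intro hQ
  set ι := algebraMap (𝓞 K) (v.adicCompletion K) with hι
  have hQlt : Valued.v (a ^ 2 + ι t * a * b + ι n * b ^ 2) < 1 := by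
    rw [hQ, lt_one_iff_le_exp772]
  obtain ⟨a₀, ha₀⟩ := exists_approx_integer772 v a ha
  obtain ⟨b₀, hb₀⟩ := exists_approx_integer772 v b hb
  have hιle : ∀ r : 𝓞 K, Valued.v (ι r) ≤ 1 := valued_algebraMap_le_one772 v
  have mul_lt_l : ∀ x y : v.adicCompletion K, Valued.v x < 1 → Valued.v y ≤ 1 →
      Valued.v (x * y) < 1 := by
    intro x y hx hy
    rw [map_mul]
    calc Valued.v x * Valued.v y ≤ Valued.v x * 1 := mul_le_mul_right hy _
      _ = Valued.v x := mul_one _
      _ < 1 := hx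
  have add_lt : ∀ x y : v.adicCompletion K, Valued.v x < 1 → Valued.v y < 1 →
      Valued.v (x + y) < 1 := fun x y hx hy =>
    lt_of_le_of_lt (Valuation.map_add _ _ _) (max_lt hx hy)
  have add_le : ∀ x y : v.adicCompletion K, Valued.v x ≤ 1 → Valued.v y ≤ 1 →
      Valued.v (x + y) ≤ 1 := fun x y hx hy =>
    le_trans (Valuation.map_add _ _ _) (max_le hx hy)
  have mul_le : ∀ x y : v.adicCompletion K, Valued.v x ≤ 1 → Valued.v y ≤ 1 →
      Valued.v (x * y) ≤ 1 := by
    intro x y hx hy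
    rw [map_mul]
    exact mul_le_one' hx hy
  -- `Q₀ ∈ v`
  have hda : Valued.v (ι a₀ - a) < 1 := by rw [Valuation.map_sub_swap]; exact ha₀
  have hdb : Valued.v (ι b₀ - b) < 1 := by rw [Valuation.map_sub_swap]; exact hb₀
  have hQ₀ : a₀ ^ 2 + t * a₀ * b₀ + n * b₀ ^ 2 ∈ v.asIdeal := by
    rw [← valued_algebraMap_lt_one_iff772]
    have e : ι (a₀ ^ 2 + t * a₀ * b₀ + n * b₀ ^ 2)
        = (a ^ 2 + ι t * a * b + ι n * b ^ 2)
          + ((ι a₀ - a) * (ι a₀ + a + ι t * ι b₀)
            + (ι b₀ - b) * (ι t * a + ι n * (ι b₀ + b))) := by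
      simp only [map_add, map_mul, map_pow]
      ring
    rw [e]
    refine add_lt _ _ hQlt (add_lt _ _ (mul_lt_l _ _ hda ?_) (mul_lt_l _ _ hdb ?_))
    · exact add_le _ _ (add_le _ _ (hιle _) ha) (mul_le _ _ (hιle _) (hιle _))
    · exact add_le _ _ (mul_le _ _ (hιle _) ha) (mul_le _ _ (hιle _) (add_le _ _ (hιle _) hb))
  by_cases hb₀v : b₀ ∈ v.asIdeal
  · -- then `a₀ ∈ v`, and `a, b` are in the maximal ideal
    have ha₀v : a₀ ∈ v.asIdeal := by
      have h1 : a₀ ^ 2 ∈ v.asIdeal := by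
        have : a₀ ^ 2 = (a₀ ^ 2 + t * a₀ * b₀ + n * b₀ ^ 2) - (t * a₀ + n * b₀) * b₀ := by ring
        rw [this]
        exact sub_mem hQ₀ (Ideal.mul_mem_left _ _ hb₀v)
      exact v.isPrime.mem_of_pow_mem 2 h1
    have hav : Valued.v a < 1 := by
      have : a = ι a₀ + (a - ι a₀) := by ring
      rw [this]
      exact add_lt _ _ ((valued_algebraMap_lt_one_iff772 v a₀).mpr ha₀v) ha₀
    have hbv : Valued.v b < 1 := by
      have : b = ι b₀ + (b - ι b₀) := by ring
      rw [this]
      exact add_lt _ _ ((valued_algebraMap_lt_one_iff772 v b₀).mpr hb₀v) hb₀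
    rw [lt_one_iff_le_exp772] at hav hbv
    have h2 : ∀ x y : v.adicCompletion K, Valued.v x ≤ WithZero.exp (-1 : ℤ) →
        Valued.v y ≤ WithZero.exp (-1 : ℤ) → Valued.v (x * y) ≤ WithZero.exp (-2 : ℤ) := by
      intro x y hx hy
      rw [map_mul]
      calc Valued.v x * Valued.v y ≤ WithZero.exp (-1 : ℤ) * WithZero.exp (-1 : ℤ) :=
            mul_le_mul' hx hy
        _ = WithZero.exp (-2 : ℤ) := by rw [← WithZero.exp_add]; norm_num
    have h3 : ∀ x y : v.adicCompletion K, Valued.v x ≤ 1 →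
        Valued.v y ≤ WithZero.exp (-2 : ℤ) → Valued.v (x * y) ≤ WithZero.exp (-2 : ℤ) := by
      intro x y hx hy
      rw [map_mul]
      calc Valued.v x * Valued.v y ≤ 1 * WithZero.exp (-2 : ℤ) := mul_le_mul' hx hy
        _ = WithZero.exp (-2 : ℤ) := one_mul _
    have hQle : Valued.v (a ^ 2 + ι t * a * b + ι n * b ^ 2) ≤ WithZero.exp (-2 : ℤ) := by
      have e1 : a ^ 2 = a * a := pow_two a
      have e2 : ι t * a * b = ι t * (a * b) := mul_assoc _ _ _
      have e3 : b ^ 2 = b * b := pow_two b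
      rw [e1, e2, e3]
      refine le_trans (Valuation.map_add _ _ _) (max_le
        (le_trans (Valuation.map_add _ _ _) (max_le (h2 _ _ hav hav) ?_)) ?_)
      · exact h3 _ _ (hιle _) (h2 _ _ hav hbv)
      · exact h3 _ _ (hιle _) (h2 _ _ hbv hbv)
    rw [hQ, WithZero.exp_le_exp] at hQle
    omega
  · -- `r = - a₀ / b₀` is a root modulo `v`
    obtain ⟨b', hb'⟩ : ∃ b' : 𝓞 K, b₀ * b' - 1 ∈ v.asIdeal := by
      obtain ⟨y, i, hi, hyi⟩ := v.isMaximal.exists_inv hb₀v
      refine ⟨y, ?_⟩
      have : b₀ * y - 1 = -i := by linear_combination hyi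
      rw [this]
      exact neg_mem hi
    apply hroot (-(a₀ * b'))
    have h1 : b₀ ^ 2 * ((-(a₀ * b')) ^ 2 - t * (-(a₀ * b')) + n) ∈ v.asIdeal := by
      have : b₀ ^ 2 * ((-(a₀ * b')) ^ 2 - t * (-(a₀ * b')) + n)
          = (a₀ ^ 2 + t * a₀ * b₀ + n * b₀ ^ 2)
            + (a₀ ^ 2 * (b₀ * b' + 1) + t * a₀ * b₀) * (b₀ * b' - 1) := by ring
      rw [this]
      exact add_mem hQ₀ (Ideal.mul_mem_left _ _ hb')
    rcases v.isPrime.mem_or_mem h1 with h | h
    · exact absurd (v.isPrime.mem_of_pow_mem 2 h) hb₀v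
    · exact h

end Fermat.Agent.LT.A2.H772
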