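import Fermat.Agent.LT.A2.H83.TorusSpec
import Fermat.Agent.LT.A2.H772.Quad
import Fermat.Agent.LT.A2.H772.QuadLocal

/-!
# Row LT, tower A2, sub-leaf `InertC83` of A2.02 `TorusCharC` (helper772), OFF-MAIN

`inertC772 : H83.InertC83`, VERBATIM vs `LT/A2/H83/TorusSpec.lean` (helper83, sha 333b5d50).

At a place `v ∤ (t² - 4n)` with only one place `w` over it:
* `w` is unramified over `v` (`e_eq_one_of_disc772`, from `disc_mem_of_ramified772`), so a
  uniformiser of `v` is a uniformiser of `w` (`valued_up772`, from Mathlib's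
  `HeightOneSpectrum.valuation_liesOver`);
* `X² - tX + n` has no root modulo `v` (`no_root_of_inert772`), hence the norm form does not take
  the valuation of a uniformiser on `𝒪_v²` (`normForm_ne_unif772`).

No definitions.
-/

set_option autoImplicit false
set_option linter.deprecated false
set_option linter.style.haveILetI false
set_option linter.unusedSectionVars false

open IsDedekindDomain NumberField

noncomputable section
namespace Fermat.Agent.LT.A2.H772
open Fermat.Agent.LT.H556 Fermat.Agent.LT.A2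

variable {K L : Type} [Field K] [NumberField K] [Field L] [NumberField L] [Algebra K L]

/-- **(c′)** `v ∤ t² - 4n` ⟹ every place over `v` is unramified. -/
theorem e_eq_one_of_disc772 (h2 : Module.finrank K L = 2) (ω : 𝓞 L) (t n : 𝓞 K)
    (hω : ω ^ 2 - algebraMap (𝓞 K) (𝓞 L) t * ω + algebraMap (𝓞 K) (𝓞 L) n = 0)
    (hirr : ∀ x : K, x ^ 2 - algebraMap (𝓞 K) K t * x + algebraMap (𝓞 K) K n ≠ 0)
    (v : HeightOneSpectrum (𝓞 K)) (w : HeightOneSpectrum (𝓞 L)) (hw : LiesOverPl K w v)
    (hd : t ^ 2 - 4 * n ∉ v.asIdeal) :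
    Ideal.ramificationIdx' v.asIdeal w.asIdeal = 1 := by
  haveI := liesOver_of_liesOverPl772 hw
  have h0 : Ideal.ramificationIdx' v.asIdeal w.asIdeal ≠ 0 :=
    Ideal.IsDedekindDomain.ramificationIdx'_ne_zero_of_liesOver w.asIdeal v.ne_bot
  have h1 : Ideal.ramificationIdx' v.asIdeal w.asIdeal < 2 :=
    Ideal.ramificationIdx'_lt
      (fun hle => hd (disc_mem_of_ramified772 h2 ω t n hω hirr v w hw hle))
  omega

/-- The valuation at `w` of an element of `K` is the `e`-th power of its valuation at `v`. -/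
theorem valued_up772 {v : HeightOneSpectrum (𝓞 K)} {w : HeightOneSpectrum (𝓞 L)}
    (hw : LiesOverPl K w v) (x : K) :
    Valued.v (algebraMap L (w.adicCompletion L) (algebraMap K L x))
      = Valued.v (algebraMap K (v.adicCompletion K) x)
          ^ Ideal.ramificationIdx' v.asIdeal w.asIdeal := by
  haveI := liesOver_of_liesOverPl772 hw
  have h1 : Valued.v (algebraMap L (w.adicCompletion L) (algebraMap K L x))
      = w.valuation L (algebraMap K L x) :=
    HeightOneSpectrum.valuedAdicCompletion_eq_valuation' w (algebraMap K L x)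
  have h2 : Valued.v (algebraMap K (v.adicCompletion K) x) = v.valuation K x :=
    HeightOneSpectrum.valuedAdicCompletion_eq_valuation' v x
  rw [h1, h2]
  exact (HeightOneSpectrum.valuation_liesOver L v w x).symm

/-- **InertC83**, verbatim. -/
theorem inertC772 : H83.InertC83 := by
  intro K L _ _ _ _ _ t n ω h2 hg v w hw huniq hdisc
  obtain ⟨t', rfl⟩ := (IsIntegralClosure.isIntegral_iff (A := 𝓞 K) (R := ℤ) (B := K)).1 hg.int_t
  obtain ⟨n', rfl⟩ := (IsIntegralClosure.isIntegral_iff (A := 𝓞 K) (R := ℤ) (B := K)).1 hg.int_n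
  obtain ⟨ω', rfl⟩ := (IsIntegralClosure.isIntegral_iff (A := 𝓞 L) (R := ℤ) (B := L)).1 hg.int_ω
  have hω : ω' ^ 2 - algebraMap (𝓞 K) (𝓞 L) t' * ω' + algebraMap (𝓞 K) (𝓞 L) n' = 0 := by
    apply RingOfIntegers.coe_injective (K := L)
    have := hg.rel
    rw [← IsScalarTower.algebraMap_apply (𝓞 K) K L, ← IsScalarTower.algebraMap_apply (𝓞 K) K L,
      IsScalarTower.algebraMap_apply (𝓞 K) (𝓞 L) L t',
      IsScalarTower.algebraMap_apply (𝓞 K) (𝓞 L) L n'] at this
    simpa using this
  have hirr : ∀ x : K, x ^ 2 - algebraMap (𝓞 K) K t' * x + algebraMap (𝓞 K) K n' ≠ 0 :=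
    hg.irred
  have hd : t' ^ 2 - 4 * n' ∉ v.asIdeal := by
    intro hmem
    have hlt := (valued_algebraMap_lt_one_iff772 v (t' ^ 2 - 4 * n')).2 hmem
    have heq : algebraMap (𝓞 K) (v.adicCompletion K) (t' ^ 2 - 4 * n')
        = algebraMap K (v.adicCompletion K)
            (algebraMap (𝓞 K) K t' ^ 2 - 4 * algebraMap (𝓞 K) K n') := by
      rw [IsScalarTower.algebraMap_apply (𝓞 K) K (v.adicCompletion K)]
      congr 1
    rw [heq] at hlt
    have h1 : Valued.v (algebraMap K (v.adicCompletion K)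
        (algebraMap (𝓞 K) K t' ^ 2 - 4 * algebraMap (𝓞 K) K n')) = 1 := hdisc
    rw [h1] at hlt
    exact lt_irrefl _ hlt
  have he : Ideal.ramificationIdx' v.asIdeal w.asIdeal = 1 :=
    e_eq_one_of_disc772 h2 ω' t' n' hω hirr v w hw hd
  have hroot : ∀ r : 𝓞 K, r ^ 2 - t' * r + n' ∉ v.asIdeal :=
    no_root_of_inert772 h2 ω' t' n' hω hirr v hd w hw huniq he
  refine ⟨?_, ?_⟩
  · intro x y hx hy
    have := normForm_ne_unif772 v t' n' hroot x y hx hy
    rwa [IsScalarTower.algebraMap_apply (𝓞 K) K (v.adicCompletion K) t',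
      IsScalarTower.algebraMap_apply (𝓞 K) K (v.adicCompletion K) n'] at this
  · obtain ⟨ϖ, hϖ⟩ := v.valuation_exists_uniformizer K
    have hv : H83.val83 v ϖ = WithZero.exp (-1 : ℤ) := by
      have : Valued.v (algebraMap K (v.adicCompletion K) ϖ) = v.valuation K ϖ :=
        HeightOneSpectrum.valuedAdicCompletion_eq_valuation' v ϖ
      exact this.trans hϖ
    refine ⟨ϖ, hv, ?_⟩
    have hup := valued_up772 hw ϖ
    rw [he, pow_one] at hup
    exact hup.trans hv

end Fermat.Agent.LT.A2.H772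

end
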